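import Mathlib

/-!
# Row LT, tower T3, leaf AS.2w (helper984): smooth parametric integrals over `[0,1]`

Mathlib only.  `p ↦ ∫ t in 0..1, g p t` is smooth when `g` is jointly smooth
(from `contDiffOn_convolution_right_with_param`).  OFF-MAIN.
-/

set_option autoImplicit false

noncomputable section

namespace Fermat.Agent.LT.T3.H984

open Set Filter Topology MeasureTheory
open scoped ContDiff Convolution

/-- A smooth bump function, equal to `1` on `[-3/2, 1/2]`, with support in `(-5/2, 3/2)`. -/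
def bump984 : ContDiffBump (-(1/2) : ℝ) := ⟨1, 2, by norm_num, by norm_num⟩

/-- The indicator function of `(0, 1]`. -/
def ind984 : ℝ → ℝ := Set.indicator (Set.Ioc 0 1) (fun _ => (1:ℝ))

/-- The cut-off, reflected integrand. -/
def cut984 (g : ℝ × ℝ → ℝ → ℂ) : ℝ × ℝ → ℝ → ℂ := fun p x => (bump984 x : ℝ) • g p (-x)

theorem ind984_locInt : LocallyIntegrable ind984 volume := by
  apply Integrable.locallyIntegrable
  exact (integrable_indicator_iff measurableSet_Ioc).mpr (by simp)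

theorem cut984_zero (g : ℝ × ℝ → ℝ → ℂ) (p : ℝ × ℝ) (x : ℝ)
    (hx : x ∉ Metric.closedBall (-(1/2) : ℝ) 2) : cut984 g p x = 0 := by
  have : (bump984 x : ℝ) = 0 := by
    apply bump984.zero_of_le_dist
    rw [Metric.mem_closedBall, not_le] at hx
    exact hx.le
  simp only [cut984, this, zero_smul]

theorem cut984_contDiff {g : ℝ × ℝ → ℝ → ℂ}
    (hg : ContDiff ℝ ∞ (fun q : (ℝ × ℝ) × ℝ => g q.1 q.2)) :
    ContDiff ℝ ∞ (fun q : (ℝ × ℝ) × ℝ => cut984 g q.1 q.2) := by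
  have h1 : ContDiff ℝ ∞ (fun q : (ℝ × ℝ) × ℝ => (bump984 q.2 : ℝ)) :=
    (bump984.contDiff (n := (⊤ : ℕ∞))).comp contDiff_snd
  have h2 : ContDiff ℝ ∞ (fun q : (ℝ × ℝ) × ℝ => g q.1 (-q.2)) :=
    hg.comp (contDiff_fst.prodMk contDiff_snd.neg)
  exact h1.smul h2

theorem conv984_eq (g : ℝ × ℝ → ℝ → ℂ) (p : ℝ × ℝ) :
    (ind984 ⋆[(ContinuousLinearMap.lsmul ℝ ℝ : ℝ →L[ℝ] ℂ →L[ℝ] ℂ), volume] cut984 g p) 0
      = ∫ t in (0:ℝ)..1, g p t := by
  rw [MeasureTheory.convolution_def, intervalIntegral.integral_of_le zero_le_one,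
    ← integral_indicator measurableSet_Ioc]
  congr 1
  funext t
  by_cases ht : t ∈ Set.Ioc (0:ℝ) 1
  · have hχ : (bump984 (-t) : ℝ) = 1 := by
      apply bump984.one_of_mem_closedBall
      rw [Metric.mem_closedBall, Real.dist_eq, abs_le]
      obtain ⟨h0, h1⟩ := ht
      have : bump984.rIn = 1 := rfl
      rw [this]
      constructor <;> linarith
    simp only [ind984, cut984, Set.indicator_of_mem ht, ContinuousLinearMap.lsmul_apply,
      one_smul, zero_sub, neg_neg, hχ]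
  · simp only [ind984, Set.indicator_of_notMem ht, ContinuousLinearMap.lsmul_apply, zero_smul]

/-- The convolution, as a function of the parameter and the point. -/
def conv984 (g : ℝ × ℝ → ℝ → ℂ) (q : (ℝ × ℝ) × ℝ) : ℂ :=
  (ind984 ⋆[(ContinuousLinearMap.lsmul ℝ ℝ : ℝ →L[ℝ] ℂ →L[ℝ] ℂ), volume] cut984 g q.1) q.2

theorem conv984_contDiff {g : ℝ × ℝ → ℝ → ℂ}
    (hg : ContDiff ℝ ∞ (fun q : (ℝ × ℝ) × ℝ => g q.1 q.2)) : ContDiff ℝ ∞ (conv984 g) := by
  have hg' : ContDiffOn ℝ ((⊤ : ℕ∞) : WithTop ℕ∞) ↿(cut984 g) (univ ×ˢ univ) :=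
    (cut984_contDiff hg).contDiffOn
  have key : ContDiffOn ℝ ((⊤ : ℕ∞) : WithTop ℕ∞) (conv984 g) (univ ×ˢ univ) :=
    contDiffOn_convolution_right_with_param (μ := volume)
      (ContinuousLinearMap.lsmul ℝ ℝ : ℝ →L[ℝ] ℂ →L[ℝ] ℂ) (f := ind984) (g := cut984 g)
      (s := univ) (k := Metric.closedBall (-(1/2) : ℝ) 2) isOpen_univ (isCompact_closedBall _ _)
      (fun p x _ hx => cut984_zero g p x hx) ind984_locInt hg'
  rw [univ_prod_univ] at key
  exact contDiffOn_univ.mp key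

/-- The parametric integral over `[0,1]` of a jointly smooth function is smooth. -/
theorem contDiff_paramInt984 {g : ℝ × ℝ → ℝ → ℂ}
    (hg : ContDiff ℝ ∞ (fun q : (ℝ × ℝ) × ℝ => g q.1 q.2)) :
    ContDiff ℝ ∞ (fun p : ℝ × ℝ => ∫ t in (0:ℝ)..1, g p t) := by
  have key2 : ContDiff ℝ ∞ (fun p : ℝ × ℝ => conv984 g (p, (0:ℝ))) :=
    (conv984_contDiff hg).comp (contDiff_id.prodMk contDiff_const)
  have e : (fun p : ℝ × ℝ => ∫ t in (0:ℝ)..1, g p t) = (fun p : ℝ × ℝ => conv984 g (p, (0:ℝ))) := by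
    funext p
    exact (conv984_eq g p).symm
  rw [e]
  exact key2

end Fermat.Agent.LT.T3.H984
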