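import Mathlib
import Fermat.Agent.LT.T3.H984.ParamInt

/-!
# Row LT, tower T3, leaf AS.2w (helper984): Hadamard's lemma with a parameter

Mathlib only.  For `Q : ℝ × ℝ → ℂ` smooth and even in the first variable, the function
`L Q (u, c) = ∂_u Q (u, c) / sinh u` extends to a smooth function, even in `u`.  OFF-MAIN.
-/

set_option autoImplicit false

noncomputable section

namespace Fermat.Agent.LT.T3.H984

open Set Filter Topology MeasureTheory
open scoped ContDiff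

/-- Partial derivative in the first variable. -/
def d1_984 (Q : ℝ × ℝ → ℂ) (p : ℝ × ℝ) : ℂ := fderiv ℝ Q p (1, 0)

/-- Partial derivative in the second variable. -/
def d2_984 (Q : ℝ × ℝ → ℂ) (p : ℝ × ℝ) : ℂ := fderiv ℝ Q p (0, 1)

/-- Even in the first variable. -/
def IsEv984 (Q : ℝ × ℝ → ℂ) : Prop := ∀ u c : ℝ, Q (-u, c) = Q (u, c)

/-- Odd in the first variable. -/
def IsOd984 (Q : ℝ × ℝ → ℂ) : Prop := ∀ u c : ℝ, Q (-u, c) = -Q (u, c)

theorem fderiv_contDiff984 {Q : ℝ × ℝ → ℂ} (hQ : ContDiff ℝ ∞ Q) :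
    ContDiff ℝ ∞ (fderiv ℝ Q) :=
  hQ.fderiv_right (m := ∞) (by simp)

theorem d1_contDiff984 {Q : ℝ × ℝ → ℂ} (hQ : ContDiff ℝ ∞ Q) : ContDiff ℝ ∞ (d1_984 Q) :=
  (fderiv_contDiff984 hQ).clm_apply contDiff_const

theorem d2_contDiff984 {Q : ℝ × ℝ → ℂ} (hQ : ContDiff ℝ ∞ Q) : ContDiff ℝ ∞ (d2_984 Q) :=
  (fderiv_contDiff984 hQ).clm_apply contDiff_const

theorem hasFDerivAt984 {Q : ℝ × ℝ → ℂ} (hQ : ContDiff ℝ ∞ Q) (p : ℝ × ℝ) :
    HasFDerivAt Q (fderiv ℝ Q p) p :=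
  ((hQ.differentiable (by simp)) p).hasFDerivAt

theorem fderiv_apply984 (Q : ℝ × ℝ → ℂ) (p : ℝ × ℝ) (a b : ℝ) :
    fderiv ℝ Q p (a, b) = (a : ℂ) * d1_984 Q p + (b : ℂ) * d2_984 Q p := by
  have : ((a, b) : ℝ × ℝ) = a • ((1, 0) : ℝ × ℝ) + b • ((0, 1) : ℝ × ℝ) := by
    ext <;> simp
  rw [this, map_add, map_smul, map_smul]
  simp only [d1_984, d2_984, Complex.real_smul]

/-- `∂₁ Q (u, c)` is the derivative of `t ↦ Q (t, c)` at `u`. -/
theorem hasDerivAt_d1_984 {Q : ℝ × ℝ → ℂ} (hQ : ContDiff ℝ ∞ Q) (u c : ℝ) :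
    HasDerivAt (fun t : ℝ => Q (t, c)) (d1_984 Q (u, c)) u := by
  have h1 : HasDerivAt (fun t : ℝ => ((t, c) : ℝ × ℝ)) ((1, 0) : ℝ × ℝ) u :=
    (hasDerivAt_id u).prodMk (hasDerivAt_const u c)
  exact (hasFDerivAt984 hQ (u, c)).comp_hasDerivAt u h1

/-- `∂₂ Q (u, c)` is the derivative of `s ↦ Q (u, s)` at `c`. -/
theorem hasDerivAt_d2_984 {Q : ℝ × ℝ → ℂ} (hQ : ContDiff ℝ ∞ Q) (u c : ℝ) :
    HasDerivAt (fun s : ℝ => Q (u, s)) (d2_984 Q (u, c)) c := by
  have h1 : HasDerivAt (fun s : ℝ => ((u, s) : ℝ × ℝ)) ((0, 1) : ℝ × ℝ) c :=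
    (hasDerivAt_const c u).prodMk (hasDerivAt_id c)
  exact (hasFDerivAt984 hQ (u, c)).comp_hasDerivAt c h1

theorem d1_eq_deriv984 {Q : ℝ × ℝ → ℂ} (hQ : ContDiff ℝ ∞ Q) (u c : ℝ) :
    d1_984 Q (u, c) = deriv (fun t : ℝ => Q (t, c)) u :=
  (hasDerivAt_d1_984 hQ u c).deriv.symm

theorem d2_eq_deriv984 {Q : ℝ × ℝ → ℂ} (hQ : ContDiff ℝ ∞ Q) (u c : ℝ) :
    d2_984 Q (u, c) = deriv (fun s : ℝ => Q (u, s)) c :=
  (hasDerivAt_d2_984 hQ u c).deriv.symm

/-- The `u`-derivative of an even function is odd. -/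
theorem d1_odd984 {Q : ℝ × ℝ → ℂ} (hQ : ContDiff ℝ ∞ Q) (hev : IsEv984 Q) : IsOd984 (d1_984 Q) := by
  intro u c
  have h1 : HasDerivAt (fun t : ℝ => Q (-t, c)) (-(d1_984 Q (-u, c))) u := by
    have := (hasDerivAt_d1_984 hQ (-u) c).scomp u (hasDerivAt_neg u)
    simp only [neg_smul, one_smul] at this
    exact this
  have h2 : (fun t : ℝ => Q (-t, c)) = fun t : ℝ => Q (t, c) := funext fun t => hev t c
  rw [h2] at h1
  have := h1.unique (hasDerivAt_d1_984 hQ u c)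
  rw [← this, neg_neg]

/-- The `u`-derivative of an odd function is even. -/
theorem d1_even984 {Q : ℝ × ℝ → ℂ} (hQ : ContDiff ℝ ∞ Q) (hod : IsOd984 Q) : IsEv984 (d1_984 Q) := by
  intro u c
  have h1 : HasDerivAt (fun t : ℝ => Q (-t, c)) (-(d1_984 Q (-u, c))) u := by
    have := (hasDerivAt_d1_984 hQ (-u) c).scomp u (hasDerivAt_neg u)
    simp only [neg_smul, one_smul] at this
    exact this
  have h2 : (fun t : ℝ => Q (-t, c)) = fun t : ℝ => -Q (t, c) := funext fun t => hod t c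
  rw [h2] at h1
  have := h1.unique (hasDerivAt_d1_984 hQ u c).neg
  exact neg_injective this

/-- The `c`-derivative of an even function is even. -/
theorem d2_even984 {Q : ℝ × ℝ → ℂ} (hQ : ContDiff ℝ ∞ Q) (hev : IsEv984 Q) : IsEv984 (d2_984 Q) := by
  intro u c
  rw [d2_eq_deriv984 hQ, d2_eq_deriv984 hQ]
  congr 1
  funext s
  exact hev u s

theorem odd_zero984 {Q : ℝ × ℝ → ℂ} (hod : IsOd984 Q) (c : ℝ) : Q (0, c) = 0 := by
  have := hod 0 c
  rw [neg_zero] at this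
  have h2 : (2 : ℂ) * Q (0, c) = 0 := by linear_combination this
  simpa using h2

/-- Hadamard's quotient: `had f (u, c) = ∫₀¹ ∂₁ f (t u, c) dt`. -/
def had984 (f : ℝ × ℝ → ℂ) (p : ℝ × ℝ) : ℂ := ∫ t in (0:ℝ)..1, d1_984 f (t * p.1, p.2)

theorem had_contDiff984 {f : ℝ × ℝ → ℂ} (hf : ContDiff ℝ ∞ f) : ContDiff ℝ ∞ (had984 f) := by
  have hg : ContDiff ℝ ∞ (fun q : (ℝ × ℝ) × ℝ => d1_984 f (q.2 * q.1.1, q.1.2)) := by
    apply (d1_contDiff984 hf).comp
    exact (contDiff_snd.mul (contDiff_fst.comp contDiff_fst)).prodMk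
      (contDiff_snd.comp contDiff_fst)
  exact contDiff_paramInt984 (g := fun p t => d1_984 f (t * p.1, p.2)) hg

/-- Hadamard's lemma: `f (u, c) - f (0, c) = u * had f (u, c)`. -/
theorem had_eq984 {f : ℝ × ℝ → ℂ} (hf : ContDiff ℝ ∞ f) (u c : ℝ) :
    f (u, c) - f (0, c) = (u : ℂ) * had984 f (u, c) := by
  have hderiv : ∀ t ∈ Set.uIcc (0:ℝ) 1,
      HasDerivAt (fun t : ℝ => f (t * u, c)) ((u : ℂ) * d1_984 f (t * u, c)) t := by
    intro t _
    have h1 : HasDerivAt (fun t : ℝ => t * u) u t := by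
      simpa using (hasDerivAt_id t).mul_const u
    have := (hasDerivAt_d1_984 hf (t * u) c).scomp t h1
    simpa [Function.comp_def] using this
  have hcont : Continuous (fun t : ℝ => (u : ℂ) * d1_984 f (t * u, c)) := by
    apply Continuous.mul continuous_const
    exact (d1_contDiff984 hf).continuous.comp (by fun_prop)
  have key := intervalIntegral.integral_eq_sub_of_hasDerivAt hderiv (hcont.intervalIntegrable 0 1)
  rw [intervalIntegral.integral_const_mul] at key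
  simp only [one_mul, zero_mul] at key
  rw [had984]
  exact key.symm

/-- `sinh` as a function on the plane. -/
def sh984 (p : ℝ × ℝ) : ℂ := (Real.sinh p.1 : ℂ)

theorem sh_contDiff984 : ContDiff ℝ ∞ sh984 := by
  have h1 : ContDiff ℝ ∞ (fun p : ℝ × ℝ => Real.sinh p.1) := Real.contDiff_sinh.comp contDiff_fst
  exact Complex.ofRealCLM.contDiff.comp h1

theorem d1_sh984 (u c : ℝ) : d1_984 sh984 (u, c) = (Real.cosh u : ℂ) := by
  rw [d1_eq_deriv984 sh_contDiff984]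
  have : HasDerivAt (fun t : ℝ => sh984 (t, c)) (Real.cosh u : ℂ) u := by
    have := (Real.hasDerivAt_sinh u).ofReal_comp
    simpa [sh984] using this
  exact this.deriv

/-- The denominator `sinh u / u`. -/
def shc984 : ℝ × ℝ → ℂ := had984 sh984

theorem shc_contDiff984 : ContDiff ℝ ∞ shc984 := had_contDiff984 sh_contDiff984

theorem shc_mul984 (u c : ℝ) : (Real.sinh u : ℂ) = (u : ℂ) * shc984 (u, c) := by
  have := had_eq984 sh_contDiff984 u c
  rw [shc984, ← this]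
  simp [sh984]

theorem shc_ne_zero984 (p : ℝ × ℝ) : shc984 p ≠ 0 := by
  obtain ⟨u, c⟩ := p
  by_cases hu : u = 0
  · subst hu
    have : shc984 (0, c) = 1 := by
      simp only [shc984, had984, mul_zero, d1_sh984, Real.cosh_zero, Complex.ofReal_one,
        intervalIntegral.integral_const, sub_zero, one_smul]
    rw [this]
    exact one_ne_zero
  · intro h0
    have := shc_mul984 u c
    rw [h0, mul_zero] at this
    have h2 : Real.sinh u = 0 := by exact_mod_cast this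
    exact hu (Real.sinh_eq_zero.mp h2)

theorem shc_even984 : IsEv984 shc984 := by
  intro u c
  simp only [shc984, had984, d1_sh984, mul_neg, Real.cosh_neg]

/-- The operator `L Q = ∂_u Q / sinh u` (smooth extension). -/
def opL984 (Q : ℝ × ℝ → ℂ) (p : ℝ × ℝ) : ℂ := had984 (d1_984 Q) p / shc984 p

theorem opL_contDiff984 {Q : ℝ × ℝ → ℂ} (hQ : ContDiff ℝ ∞ Q) : ContDiff ℝ ∞ (opL984 Q) := by
  have h := (had_contDiff984 (d1_contDiff984 hQ)).mul (shc_contDiff984.inv shc_ne_zero984)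
  have e : opL984 Q = fun p => had984 (d1_984 Q) p * (shc984⁻¹) p := by
    funext p
    simp only [opL984, div_eq_mul_inv, Pi.inv_apply]
  rw [e]
  exact h

theorem opL_even984 {Q : ℝ × ℝ → ℂ} (hQ : ContDiff ℝ ∞ Q) (hev : IsEv984 Q) :
    IsEv984 (opL984 Q) := by
  intro u c
  have h2 : IsEv984 (d1_984 (d1_984 Q)) := d1_even984 (d1_contDiff984 hQ) (d1_odd984 hQ hev)
  have h3 : had984 (d1_984 Q) (-u, c) = had984 (d1_984 Q) (u, c) := by
    simp only [had984, mul_neg]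
    congr 1
    funext t
    exact h2 (t * u) c
  rw [opL984, opL984, h3, shc_even984 u c]

/-- The defining property of `L`: `∂_u Q (u, c) = sinh u * L Q (u, c)`. -/
theorem opL_mul984 {Q : ℝ × ℝ → ℂ} (hQ : ContDiff ℝ ∞ Q) (hev : IsEv984 Q) (u c : ℝ) :
    d1_984 Q (u, c) = (Real.sinh u : ℂ) * opL984 Q (u, c) := by
  have h1 := had_eq984 (d1_contDiff984 hQ) u c
  rw [odd_zero984 (d1_odd984 hQ hev) c, sub_zero] at h1
  rw [h1, shc_mul984 u c, opL984]
  field_simp [shc_ne_zero984 (u, c)]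

end Fermat.Agent.LT.T3.H984
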