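import Mathlib
import Fermat.Agent.LT.T3.H984.Hadamard

/-!
# Row LT, tower T3, leaf AS.2w (helper984): Whitney's lemma (division by `sinh`, with a parameter)

Mathlib only.  For `E (u, c)` smooth on `ℝ²` and even in `u` there is `ρ`, smooth on the closed
half plane `{y ≥ 1}` up to the boundary, with `∂_u E (u, c) = sinh u · ρ (cosh u, c)`.

Proof.  `L Q = ∂_u Q / sinh u` preserves the smooth functions which are even in `u`
(`Hadamard.lean`).  For such `Q` put `ρ_Q (y, c) = Q (arcosh y, c)`.  In the open half plane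
`ρ_Q` is differentiable with `∂_y ρ_Q = ρ_{L Q}`, `∂_c ρ_Q = ρ_{∂_c Q}`; these are continuous on
the closed half plane, hence (`hasFDerivWithinAt_closure_of_tendsto_fderiv`) `ρ_Q` is
differentiable within the closed half plane with the same formula; induction on the order.
The answer is `ρ = ρ_{L E}`.  OFF-MAIN.
-/

set_option autoImplicit false

noncomputable section

namespace Fermat.Agent.LT.T3.H984

open Set Filter Topology
open scoped ContDiff

/-- The closed half plane `{y ≥ 1}`. -/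
def hp984 : Set (ℝ × ℝ) := Ici (1:ℝ) ×ˢ univ

/-- The open half plane `{y > 1}`. -/
def hpo984 : Set (ℝ × ℝ) := Ioi (1:ℝ) ×ˢ univ

theorem hpo_open984 : IsOpen hpo984 := isOpen_Ioi.prod isOpen_univ

theorem hpo_convex984 : Convex ℝ hpo984 := (convex_Ioi 1).prod convex_univ

theorem hpo_closure984 : closure hpo984 = hp984 := by
  rw [hpo984, hp984, closure_prod_eq, closure_Ioi, closure_univ]

theorem hpo_sub984 : hpo984 ⊆ hp984 := prod_mono Ioi_subset_Ici_self subset_rfl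

theorem hp_unique984 : UniqueDiffOn ℝ hp984 := (uniqueDiffOn_Ici 1).prod uniqueDiffOn_univ

/-- The inner map `(y, c) ↦ (arcosh y, c)`. -/
def inn984 (p : ℝ × ℝ) : ℝ × ℝ := (Real.arcosh p.1, p.2)

/-- `ρ_Q (y, c) = Q (arcosh y, c)`. -/
def rho984 (Q : ℝ × ℝ → ℂ) (p : ℝ × ℝ) : ℂ := Q (inn984 p)

theorem inn_contOn984 : ContinuousOn inn984 hp984 := by
  apply ContinuousOn.prodMk
  · exact Real.continuousOn_arcosh.comp continuousOn_fst (fun p hp => hp.1)
  · exact continuousOn_snd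

theorem rho_contOn984 {Q : ℝ × ℝ → ℂ} (hQ : Continuous Q) : ContinuousOn (rho984 Q) hp984 :=
  hQ.comp_continuousOn inn_contOn984

/-- The derivative of `ρ_Q`. -/
def der984 (Q : ℝ × ℝ → ℂ) (p : ℝ × ℝ) : ℝ × ℝ →L[ℝ] ℂ :=
  (ContinuousLinearMap.fst ℝ ℝ ℝ).smulRight (rho984 (opL984 Q) p) +
    (ContinuousLinearMap.snd ℝ ℝ ℝ).smulRight (rho984 (d2_984 Q) p)

theorem inn_hasFDerivAt984 (p : ℝ × ℝ) (hp : p ∈ hpo984) :
    HasFDerivAt inn984
      (((√(p.1 ^ 2 - 1))⁻¹ • ContinuousLinearMap.fst ℝ ℝ ℝ).prod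
        (ContinuousLinearMap.snd ℝ ℝ ℝ)) p := by
  have h1 : HasFDerivAt (fun q : ℝ × ℝ => Real.arcosh q.1)
      ((√(p.1 ^ 2 - 1))⁻¹ • ContinuousLinearMap.fst ℝ ℝ ℝ) p :=
    (Real.hasDerivAt_arcosh hp.1).comp_hasFDerivAt p hasFDerivAt_fst
  exact h1.prodMk hasFDerivAt_snd

theorem rho_hasFDerivAt984 {Q : ℝ × ℝ → ℂ} (hQ : ContDiff ℝ ∞ Q) (hev : IsEv984 Q)
    (p : ℝ × ℝ) (hp : p ∈ hpo984) : HasFDerivAt (rho984 Q) (der984 Q p) p := by
  have h1 : HasFDerivAt (rho984 Q) ((fderiv ℝ Q (inn984 p)).comp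
      (((√(p.1 ^ 2 - 1))⁻¹ • ContinuousLinearMap.fst ℝ ℝ ℝ).prod
        (ContinuousLinearMap.snd ℝ ℝ ℝ))) p :=
    (hasFDerivAt984 hQ (inn984 p)).comp p (inn_hasFDerivAt984 p hp)
  have hy : (1:ℝ) < p.1 := hp.1
  have hs : √(p.1 ^ 2 - 1) ≠ 0 := by
    apply (Real.sqrt_pos.mpr _).ne'
    nlinarith
  have hsC : ((√(p.1 ^ 2 - 1) : ℝ) : ℂ) ≠ 0 := Complex.ofReal_ne_zero.mpr hs
  have e : (fderiv ℝ Q (inn984 p)).comp
      (((√(p.1 ^ 2 - 1))⁻¹ • ContinuousLinearMap.fst ℝ ℝ ℝ).prod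
        (ContinuousLinearMap.snd ℝ ℝ ℝ)) = der984 Q p := by
    apply ContinuousLinearMap.ext
    rintro ⟨a, b⟩
    have hd1 : d1_984 Q (inn984 p) = ((√(p.1 ^ 2 - 1) : ℝ) : ℂ) * rho984 (opL984 Q) p := by
      have := opL_mul984 hQ hev (Real.arcosh p.1) p.2
      rw [Real.sinh_arcosh hy.le] at this
      exact this
    simp only [ContinuousLinearMap.comp_apply, ContinuousLinearMap.prod_apply,
      FunLike.coe_smul, Pi.smul_apply, ContinuousLinearMap.coe_fst', ContinuousLinearMap.coe_snd',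
      smul_eq_mul, der984, FunLike.coe_add, Pi.add_apply, ContinuousLinearMap.smulRight_apply,
      Complex.real_smul]
    rw [fderiv_apply984, hd1]
    simp only [rho984, Complex.ofReal_mul, Complex.ofReal_inv]
    field_simp
  rw [← e]
  exact h1

theorem rho_hasFDerivWithinAt984 {Q : ℝ × ℝ → ℂ} (hQ : ContDiff ℝ ∞ Q) (hev : IsEv984 Q)
    (hA : ContinuousOn (der984 Q) hp984) (x : ℝ × ℝ) (hx : x ∈ hp984) :
    HasFDerivWithinAt (rho984 Q) (der984 Q x) hp984 x := by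
  rw [← hpo_closure984]
  apply hasFDerivWithinAt_closure_of_tendsto_fderiv
  · intro p hp
    exact (rho_hasFDerivAt984 hQ hev p hp).differentiableAt.differentiableWithinAt
  · exact hpo_convex984
  · exact hpo_open984
  · intro y hy
    rw [hpo_closure984] at hy
    exact ((rho_contOn984 hQ.continuous) y hy).mono hpo_sub984
  · have h1 : Tendsto (der984 Q) (𝓝[hpo984] x) (𝓝 (der984 Q x)) := (hA x hx).mono hpo_sub984
    refine h1.congr' ?_
    filter_upwards [self_mem_nhdsWithin] with y hy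
    exact (rho_hasFDerivAt984 hQ hev y hy).fderiv.symm

theorem rho_contDiffOn_nat984 (n : ℕ) : ∀ Q : ℝ × ℝ → ℂ, ContDiff ℝ ∞ Q → IsEv984 Q →
    ContDiffOn ℝ n (rho984 Q) hp984 := by
  induction n with
  | zero =>
    intro Q hQ _
    have := (contDiffOn_zero (𝕜 := ℝ)).mpr (rho_contOn984 hQ.continuous)
    exact_mod_cast this
  | succ n ih =>
    intro Q hQ hev
    have hL := ih (opL984 Q) (opL_contDiff984 hQ) (opL_even984 hQ hev)
    have hD := ih (d2_984 Q) (d2_contDiff984 hQ) (d2_even984 hQ hev)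
    have hA : ContDiffOn ℝ n (der984 Q) hp984 :=
      (contDiffOn_const.smulRight hL).add (contDiffOn_const.smulRight hD)
    have hd : ∀ x ∈ hp984, HasFDerivWithinAt (rho984 Q) (der984 Q x) hp984 x :=
      fun x hx => rho_hasFDerivWithinAt984 hQ hev hA.continuousOn x hx
    have key : ContDiffOn ℝ ((n : WithTop ℕ∞) + 1) (rho984 Q) hp984 := by
      apply contDiffOn_succ_of_fderivWithin
      · exact fun x hx => (hd x hx).differentiableWithinAt
      · intro h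
        exact absurd h (by simp)
      · exact hA.congr (fun x hx => (hd x hx).fderivWithin (hp_unique984 x hx))
    exact_mod_cast key

theorem rho_contDiffOn984 {Q : ℝ × ℝ → ℂ} (hQ : ContDiff ℝ ∞ Q) (hev : IsEv984 Q) :
    ContDiffOn ℝ ∞ (rho984 Q) hp984 :=
  contDiffOn_infty.mpr (fun n => rho_contDiffOn_nat984 n Q hQ hev)

/-- **AS.2w = WHITNEY (division form, with a parameter).** -/
theorem whitneySinh984 (E : ℝ × ℝ → ℂ) (hE : ContDiff ℝ ((⊤ : ℕ∞) : WithTop ℕ∞) E)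
    (hev : ∀ u c : ℝ, E (-u, c) = E (u, c)) :
    ∃ ρ : ℝ × ℝ → ℂ,
      ContDiffOn ℝ ((⊤ : ℕ∞) : WithTop ℕ∞) ρ (Set.Ici (1 : ℝ) ×ˢ (Set.univ : Set ℝ)) ∧
      ∀ u c : ℝ, deriv (fun t : ℝ => E (t, c)) u = (Real.sinh u : ℂ) * ρ (Real.cosh u, c) := by
  refine ⟨rho984 (opL984 E), rho_contDiffOn984 (opL_contDiff984 hE) (opL_even984 hE hev),
    fun u c => ?_⟩
  rw [← d1_eq_deriv984 hE, opL_mul984 hE hev]
  congr 1
  show opL984 E (u, c) = opL984 E (Real.arcosh (Real.cosh u), c)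
  rcases le_total 0 u with h | h
  · rw [Real.arcosh_cosh h]
  · have : Real.arcosh (Real.cosh u) = -u := by
      rw [← Real.cosh_neg, Real.arcosh_cosh (by linarith)]
    rw [this, opL_even984 hE hev]

/-- The one-variable form. -/
theorem whitneySinh1_984 (E : ℝ → ℂ) (hE : ContDiff ℝ ((⊤ : ℕ∞) : WithTop ℕ∞) E)
    (hev : ∀ u : ℝ, E (-u) = E u) :
    ∃ ρ : ℝ → ℂ, ContDiffOn ℝ ((⊤ : ℕ∞) : WithTop ℕ∞) ρ (Set.Ici (1 : ℝ)) ∧
      ∀ u : ℝ, deriv E u = (Real.sinh u : ℂ) * ρ (Real.cosh u) := by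
  obtain ⟨ρ, hρ, h⟩ := whitneySinh984 (fun p => E p.1) (hE.comp contDiff_fst)
    (fun u _ => hev u)
  refine ⟨fun y => ρ (y, 0), ?_, fun u => h u 0⟩
  exact hρ.comp (contDiff_id.prodMk contDiff_const).contDiffOn (fun y hy => ⟨hy, mem_univ _⟩)

end Fermat.Agent.LT.T3.H984
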