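import Mathlib
import Fermat.Agent.LT.T3.H736.ASWhitney
import Fermat.Agent.LT.T3.H984.Whitney

/-!
# Row LT, tower T3, station T3.18a, leaf AS.2w `WhitneySinhC` (helper984): PROVED

Adapter: the Mathlib-only theorem `whitneySinh984` (`LT/T3/H984/Whitney.lean`) is the frozen Prop
`AS.WhitneySinhC` of `LT/T3/H736/ASWhitney.lean` (helper736) verbatim; also the one-variable form
`AS.WhitneySinh1C`.  OFF-MAIN.
-/

set_option autoImplicit false

namespace Fermat.Agent.LT.T3.H984

theorem whitneySinhC_984 : Fermat.Agent.LT.T3.AS.WhitneySinhC :=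
  fun E hE hev => whitneySinh984 E hE hev

theorem whitneySinh1C_984 : Fermat.Agent.LT.T3.AS.WhitneySinh1C :=
  fun E hE hev => whitneySinh1_984 E hE hev

end Fermat.Agent.LT.T3.H984
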